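import Mathlib

/-!
# Frobenius density, algebraic key count

`L/ℚ` a finite Galois extension with group `G = Gal(L/ℚ)`, `H ≤ G`, `M = L^H`.  For a rational
prime `ℓ` all of whose primes of `L` have trivial inertia, the number of primes of `M` of norm `ℓ`
times `|H|` equals `f` times the number of primes `P` of `L` above `ℓ` with decomposition group
`Stab_G(P) ≤ H`, where `f` is the common order of the decomposition groups above `ℓ`.
-/

set_option autoImplicit false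

open scoped NumberField Pointwise
open IsDedekindDomain

namespace Fermat.Agent.Lib.FrobDensity

variable (L : Type*) [Field L] [NumberField L] [IsGalois ℚ L]

/-- The fixed field of a subgroup of `Gal(L/ℚ)`, as an intermediate field. -/
noncomputable abbrev fixedF (H : Subgroup (L ≃ₐ[ℚ] L)) : IntermediateField ℚ L :=
  FixedPoints.intermediateField H

instance isGaloisGroup_fixedF (H : Subgroup (L ≃ₐ[ℚ] L)) :
    IsGaloisGroup H (𝓞 (fixedF L H)) (𝓞 L) :=
  IsGaloisGroup.of_isFractionRing H (𝓞 (fixedF L H)) (𝓞 L) (fixedF L H) L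

/-- The rational prime ideal `(ℓ)`. -/
abbrev ratIdeal (ℓ : ℕ) : Ideal ℤ := Ideal.span {(ℓ : ℤ)}

lemma ratIdeal_isMaximal {ℓ : ℕ} (hℓ : ℓ.Prime) : (ratIdeal ℓ).IsMaximal :=
  have : Fact ℓ.Prime := ⟨hℓ⟩
  inferInstance

/-- `ℓ` is a prime all of whose primes in `L` have trivial inertia group. -/
def Good (ℓ : ℕ) : Prop :=
  ℓ.Prime ∧ ∀ P ∈ (ratIdeal ℓ).primesOver (𝓞 L), P.inertia (L ≃ₐ[ℚ] L) = ⊥

/-- The common order of the decomposition groups above `ℓ` (for good `ℓ`). -/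
noncomputable def decompCard (ℓ : ℕ) : ℕ := (ratIdeal ℓ).inertiaDegIn (𝓞 L)

variable {L}

lemma card_stabilizer_eq_inertiaDeg {ℓ : ℕ} (hℓ : Good L ℓ) (P : Ideal (𝓞 L))
    (hP : P ∈ (ratIdeal ℓ).primesOver (𝓞 L)) :
    Nat.card (MulAction.stabilizer (L ≃ₐ[ℚ] L) P) = P.inertiaDeg ℤ := by
  have := ratIdeal_isMaximal hℓ.1
  have := hP.1
  have := hP.2
  have h := Ideal.card_stabilizer_eq_card_inertia_mul_finrank (G := L ≃ₐ[ℚ] L) (ratIdeal ℓ) P
  rw [hℓ.2 P hP, Subgroup.card_bot, one_mul] at h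
  exact h

lemma card_stabilizer_eq_decompCard {ℓ : ℕ} (hℓ : Good L ℓ) (P : Ideal (𝓞 L))
    (hP : P ∈ (ratIdeal ℓ).primesOver (𝓞 L)) :
    Nat.card (MulAction.stabilizer (L ≃ₐ[ℚ] L) P) = decompCard L ℓ := by
  have := hP.1
  have := hP.2
  rw [card_stabilizer_eq_inertiaDeg hℓ P hP, decompCard,
    Ideal.inertiaDegIn_eq_inertiaDeg (ratIdeal ℓ) P (L ≃ₐ[ℚ] L)]

lemma decompCard_pos {ℓ : ℕ} (hℓ : Good L ℓ) : 0 < decompCard L ℓ := by
  have := ratIdeal_isMaximal hℓ.1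
  obtain ⟨P, hP⟩ := (inferInstance : Nonempty ((ratIdeal ℓ).primesOver (𝓞 L)))
  rw [← card_stabilizer_eq_decompCard hℓ P hP]
  exact Nat.card_pos

section Tower

variable (H : Subgroup (L ≃ₐ[ℚ] L))

/-- The prime of `L^H` below a prime of `L` above `ℓ` is nonzero. -/
lemma under_ne_bot {ℓ : ℕ} (hℓ : ℓ.Prime) (P : Ideal (𝓞 L))
    (hP : P ∈ (ratIdeal ℓ).primesOver (𝓞 L)) : P.under (𝓞 (fixedF L H)) ≠ ⊥ := by
  have := hP.1
  have := hP.2
  intro h
  have h1 : ((ℓ : ℤ) : 𝓞 (fixedF L H)) ∈ P.under (𝓞 (fixedF L H)) := by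
    rw [Ideal.under_def, Ideal.mem_comap]
    have h2 : (ℓ : ℤ) ∈ ratIdeal ℓ := Ideal.mem_span_singleton_self _
    rw [Ideal.over_def P (ratIdeal ℓ), Ideal.under_def, Ideal.mem_comap] at h2
    simpa using h2
  rw [h, Ideal.mem_bot] at h1
  have : (ℓ : ℤ) = 0 := by exact_mod_cast h1
  exact hℓ.ne_zero (by exact_mod_cast this)

/-- Decomposition group of `P` inside `H`, when the inertia group is trivial. -/
lemma card_stabilizer_sub_eq_inertiaDeg {ℓ : ℕ} (hℓ : Good L ℓ) (P : Ideal (𝓞 L))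
    (hP : P ∈ (ratIdeal ℓ).primesOver (𝓞 L)) :
    Nat.card (MulAction.stabilizer H P) = P.inertiaDeg (𝓞 (fixedF L H)) := by
  have := ratIdeal_isMaximal hℓ.1
  have := hP.1
  have := hP.2
  have hq : (P.under (𝓞 (fixedF L H))).IsPrime := inferInstance
  have hqmax : (P.under (𝓞 (fixedF L H))).IsMaximal := hq.isMaximal (under_ne_bot H hℓ.1 P hP)
  have h := Ideal.card_stabilizer_eq_card_inertia_mul_finrank (G := H)
    (P.under (𝓞 (fixedF L H))) P
  have hI : P.inertia H = ⊥ := by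
    have h1 : (P.inertia (L ≃ₐ[ℚ] L)).subgroupOf H = P.inertia H := rfl
    rw [← h1, hℓ.2 P hP, Subgroup.bot_subgroupOf]
  rw [hI, Subgroup.card_bot, one_mul] at h
  exact h

/-- The order of the decomposition group in `H` is the order of `Stab_G(P) ⊓ H`. -/
lemma card_stabilizer_sub (P : Ideal (𝓞 L)) :
    Nat.card (MulAction.stabilizer H P) =
      Nat.card ((MulAction.stabilizer (L ≃ₐ[ℚ] L) P ⊓ H : Subgroup (L ≃ₐ[ℚ] L))) := by
  have h1 : (MulAction.stabilizer (L ≃ₐ[ℚ] L) P).subgroupOf H = MulAction.stabilizer H P := by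
    ext x
    simp only [Subgroup.mem_subgroupOf, MulAction.mem_stabilizer_iff]
    rfl
  rw [← h1, ← Subgroup.subgroupOf_map_subtype,
    Subgroup.card_map_of_injective H.subtype_injective]

/-- **Degree-one criterion.** For a prime `P` of `L` above a good prime `ℓ`, the prime of `L^H`
below `P` has norm `ℓ` iff the decomposition group of `P` is contained in `H`. -/
lemma absNorm_under_eq_iff {ℓ : ℕ} (hℓ : Good L ℓ) (P : Ideal (𝓞 L))
    (hP : P ∈ (ratIdeal ℓ).primesOver (𝓞 L)) :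
    Ideal.absNorm (P.under (𝓞 (fixedF L H))) = ℓ ↔
      MulAction.stabilizer (L ≃ₐ[ℚ] L) P ≤ H := by
  have hmax := ratIdeal_isMaximal hℓ.1
  have := hP.1
  have := hP.2
  have hq : (P.under (𝓞 (fixedF L H))).IsPrime := inferInstance
  have hqne : P.under (𝓞 (fixedF L H)) ≠ ⊥ := under_ne_bot H hℓ.1 P hP
  have hqmax : (P.under (𝓞 (fixedF L H))).IsMaximal := hq.isMaximal hqne
  have hN : Ideal.absNorm (P.under (𝓞 (fixedF L H))) =
      ℓ ^ (P.under (𝓞 (fixedF L H))).inertiaDeg ℤ := by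
    rw [Ideal.absNorm_eq_pow_inertiaDeg' (P.under (𝓞 (fixedF L H))) hℓ.1,
      Ideal.inertiaDeg'_eq_inertiaDeg]
  have htower := Ideal.inertiaDeg_tower (R := ℤ) (P.under (𝓞 (fixedF L H))) P
  rw [← card_stabilizer_eq_inertiaDeg hℓ P hP, ← card_stabilizer_sub_eq_inertiaDeg H hℓ P hP,
    card_stabilizer_sub] at htower
  have hpos : 0 < Nat.card (MulAction.stabilizer (L ≃ₐ[ℚ] L) P ⊓ H : Subgroup (L ≃ₐ[ℚ] L)) :=
    Nat.card_pos
  rw [hN]
  constructor
  · intro h
    have h1 : (P.under (𝓞 (fixedF L H))).inertiaDeg ℤ = 1 := by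
      have h2 : ℓ ^ (P.under (𝓞 (fixedF L H))).inertiaDeg ℤ = ℓ ^ 1 := by rw [h, pow_one]
      exact Nat.pow_right_injective hℓ.1.two_le h2
    rw [h1, one_mul] at htower
    have h3 : (MulAction.stabilizer (L ≃ₐ[ℚ] L) P ⊓ H : Subgroup (L ≃ₐ[ℚ] L)) =
        MulAction.stabilizer (L ≃ₐ[ℚ] L) P :=
      Subgroup.eq_of_le_of_card_ge inf_le_left htower.le
    rw [← h3]
    exact inf_le_right
  · intro h
    rw [inf_eq_left.mpr h] at htower hpos
    have h1 : (P.under (𝓞 (fixedF L H))).inertiaDeg ℤ = 1 := by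
      have h2 : (P.under (𝓞 (fixedF L H))).inertiaDeg ℤ *
          Nat.card (MulAction.stabilizer (L ≃ₐ[ℚ] L) P) =
          1 * Nat.card (MulAction.stabilizer (L ≃ₐ[ℚ] L) P) := by rw [one_mul]; exact htower.symm
      exact Nat.eq_of_mul_eq_mul_right hpos h2
    rw [h1, pow_one]

/-- The set of primes of `L` above `ℓ` whose decomposition group lies in `H`. -/
def primesWithin (ℓ : ℕ) : Set (Ideal (𝓞 L)) :=
  {P | P ∈ (ratIdeal ℓ).primesOver (𝓞 L) ∧ MulAction.stabilizer (L ≃ₐ[ℚ] L) P ≤ H}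

lemma primesWithin_finite {ℓ : ℕ} (hℓ : ℓ.Prime) : (primesWithin H ℓ).Finite := by
  have := ratIdeal_isMaximal hℓ
  exact (IsDedekindDomain.primesOver_finite (ratIdeal ℓ) (𝓞 L)).subset fun P hP => hP.1

/-- The primes of a number field of a given norm form a finite set. -/
lemma finite_norm_eq (F : Type*) [Field F] [NumberField F] (n : ℕ) :
    Finite {w : HeightOneSpectrum (𝓞 F) // Ideal.absNorm w.asIdeal = n} := by
  have h : Finite {I : Ideal (𝓞 F) // Ideal.absNorm I = n} :=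
    (Ideal.finite_setOfPred_absNorm_eq n).to_subtype
  exact Finite.of_injective
    (fun w : {w : HeightOneSpectrum (𝓞 F) // Ideal.absNorm w.asIdeal = n} =>
      (⟨w.1.asIdeal, w.2⟩ : {I : Ideal (𝓞 F) // Ideal.absNorm I = n}))
    (fun a b hab => Subtype.ext (HeightOneSpectrum.ext (congrArg Subtype.val hab)))

/-- A prime of norm `ℓ` lies over `(ℓ)`. -/
lemma liesOver_of_absNorm_eq (F : Type*) [Field F] [NumberField F] {ℓ : ℕ} (hℓ : ℓ.Prime)
    (w : HeightOneSpectrum (𝓞 F)) (hw : Ideal.absNorm w.asIdeal = ℓ) :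
    w.asIdeal.LiesOver (ratIdeal ℓ) := by
  have hmax := ratIdeal_isMaximal hℓ
  refine ⟨hmax.eq_of_le ?_ ?_⟩
  · intro h
    have h1 : (1 : ℤ) ∈ w.asIdeal.under ℤ := by rw [h]; trivial
    rw [Ideal.under_def, Ideal.mem_comap, map_one] at h1
    exact w.isPrime.ne_top ((Ideal.eq_top_iff_one _).mpr h1)
  · rw [ratIdeal, Ideal.span_le, Set.singleton_subset_iff, SetLike.mem_coe, Ideal.under_def,
      Ideal.mem_comap]
    have h1 := Ideal.absNorm_mem w.asIdeal
    rw [hw] at h1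
    simpa using h1

/-- The projection from primes of `L` with decomposition group in `H` to degree-one primes of
`L^H`. -/
noncomputable def toUnder {ℓ : ℕ} (hℓ : Good L ℓ) (x : primesWithin H ℓ) :
    {w : HeightOneSpectrum (𝓞 (fixedF L H)) // Ideal.absNorm w.asIdeal = ℓ} :=
  ⟨⟨(x : Ideal (𝓞 L)).under (𝓞 (fixedF L H)), have := x.2.1.1; inferInstance,
    under_ne_bot H hℓ.1 x.1 x.2.1⟩, (absNorm_under_eq_iff H hℓ x.1 x.2.1).mpr x.2.2⟩

lemma card_fiber_toUnder {ℓ : ℕ} (hℓ : Good L ℓ)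
    (y : {w : HeightOneSpectrum (𝓞 (fixedF L H)) // Ideal.absNorm w.asIdeal = ℓ}) :
    decompCard L ℓ * Nat.card {x : primesWithin H ℓ // toUnder H hℓ x = y} = Nat.card H := by
  have hmax := ratIdeal_isMaximal hℓ.1
  have hqp : y.1.asIdeal.IsPrime := y.1.isPrime
  have hqmax : y.1.asIdeal.IsMaximal := y.1.isMaximal
  have hqlo : y.1.asIdeal.LiesOver (ratIdeal ℓ) := liesOver_of_absNorm_eq _ hℓ.1 y.1 y.2
  -- the fibre is the set of primes over `q`
  have hrange : Set.range (fun x : {x : primesWithin H ℓ // toUnder H hℓ x = y} =>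
      ((x.1 : primesWithin H ℓ) : Ideal (𝓞 L))) = y.1.asIdeal.primesOver (𝓞 L) := by
    ext P
    constructor
    · rintro ⟨x, rfl⟩
      refine ⟨x.1.2.1.1, ⟨?_⟩⟩
      have h1 := congrArg (fun z => z.1.asIdeal) x.2
      exact h1.symm
    · rintro ⟨hPp, hPq⟩
      have hPl : P.LiesOver (ratIdeal ℓ) := Ideal.LiesOver.trans P y.1.asIdeal (ratIdeal ℓ)
      have hPm : P ∈ (ratIdeal ℓ).primesOver (𝓞 L) := ⟨hPp, hPl⟩
      have hunder : P.under (𝓞 (fixedF L H)) = y.1.asIdeal := (Ideal.over_def P y.1.asIdeal).symm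
      have hst : MulAction.stabilizer (L ≃ₐ[ℚ] L) P ≤ H := by
        rw [← absNorm_under_eq_iff H hℓ P hPm, hunder]
        exact y.2
      refine ⟨⟨⟨P, hPm, hst⟩, ?_⟩, rfl⟩
      exact Subtype.ext (HeightOneSpectrum.ext hunder)
  have hinj : Function.Injective (fun x : {x : primesWithin H ℓ // toUnder H hℓ x = y} =>
      ((x.1 : primesWithin H ℓ) : Ideal (𝓞 L))) :=
    fun a b hab => Subtype.ext (Subtype.ext hab)
  have hcard : Nat.card {x : primesWithin H ℓ // toUnder H hℓ x = y} =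
      (y.1.asIdeal.primesOver (𝓞 L)).ncard := by
    rw [← Nat.card_coe_set_eq, ← hrange, Nat.card_range_of_injective hinj]
  obtain ⟨P₀, hP₀⟩ := (inferInstance : Nonempty (y.1.asIdeal.primesOver (𝓞 L)))
  have := hP₀.1
  have := hP₀.2
  have hP₀l : P₀.LiesOver (ratIdeal ℓ) := Ideal.LiesOver.trans P₀ y.1.asIdeal (ratIdeal ℓ)
  have hP₀m : P₀ ∈ (ratIdeal ℓ).primesOver (𝓞 L) := ⟨hP₀.1, hP₀l⟩
  have hunder : P₀.under (𝓞 (fixedF L H)) = y.1.asIdeal := (Ideal.over_def P₀ y.1.asIdeal).symm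
  have hst : MulAction.stabilizer (L ≃ₐ[ℚ] L) P₀ ≤ H := by
    rw [← absNorm_under_eq_iff H hℓ P₀ hP₀m, hunder]
    exact y.2
  have h := Ideal.ncard_primesOver_mul_card_inertia_mul_finrank (G := H) y.1.asIdeal P₀
  have hI : P₀.inertia H = ⊥ := by
    have h1 : (P₀.inertia (L ≃ₐ[ℚ] L)).subgroupOf H = P₀.inertia H := rfl
    rw [← h1, hℓ.2 P₀ hP₀m, Subgroup.bot_subgroupOf]
  have hf : P₀.inertiaDeg (𝓞 (fixedF L H)) = decompCard L ℓ := by
    rw [← card_stabilizer_sub_eq_inertiaDeg H hℓ P₀ hP₀m, card_stabilizer_sub,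
      inf_eq_left.mpr hst, card_stabilizer_eq_decompCard hℓ P₀ hP₀m]
  rw [hI, Subgroup.card_bot, mul_one, hf] at h
  rw [hcard, mul_comm]
  exact h

/-- **Key count.** For a good prime `ℓ`, `|H|` times the number of primes of `L^H` of norm `ℓ`
equals `f_ℓ` times the number of primes of `L` above `ℓ` with decomposition group inside `H`. -/
theorem key_count {ℓ : ℕ} (hℓ : Good L ℓ) :
    Nat.card H *
        Nat.card {w : HeightOneSpectrum (𝓞 (fixedF L H)) // Ideal.absNorm w.asIdeal = ℓ} =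
      decompCard L ℓ * Nat.card (primesWithin H ℓ) := by
  have hfinX : Finite (primesWithin H ℓ) := (primesWithin_finite H hℓ.1).to_subtype
  have hfinY := finite_norm_eq (fixedF L H) ℓ
  let _ := Fintype.ofFinite {w : HeightOneSpectrum (𝓞 (fixedF L H)) // Ideal.absNorm w.asIdeal = ℓ}
  rw [Nat.card_congr (Equiv.sigmaFiberEquiv (toUnder H hℓ)).symm, Nat.card_sigma, Finset.mul_sum,
    Finset.sum_congr rfl (fun y _ => card_fiber_toUnder H hℓ y), Finset.sum_const,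
    Finset.card_univ, smul_eq_mul, ← Nat.card_eq_fintype_card, mul_comm]

end Tower

section Bad

variable (L)

/-- All but finitely many primes are good (have trivial inertia groups in `L`). -/
theorem exists_finset_good : ∃ T : Finset ℕ, ∀ ℓ : ℕ, ℓ.Prime → ℓ ∉ T → Good L ℓ := by
  classical
  have hfaith : FaithfulSMul (L ≃ₐ[ℚ] L) (𝓞 L) := IsGaloisGroup.faithful ℤ
  have hex : ∀ x : L ≃ₐ[ℚ] L, ∃ b : 𝓞 L, x ≠ 1 → x • b - b ≠ 0 := by
    intro x
    by_cases hx : x = 1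
    · exact ⟨0, fun h => absurd hx h⟩
    · have : ¬ ∀ b : 𝓞 L, x • b = (1 : L ≃ₐ[ℚ] L) • b := fun h => hx (hfaith.eq_of_smul_eq_smul h)
      obtain ⟨b, hb⟩ := not_forall.mp this
      exact ⟨b, fun _ h => hb (by rw [one_smul]; exact sub_eq_zero.mp h)⟩
  choose b hb using hex
  let _ := Fintype.ofFinite (L ≃ₐ[ℚ] L)
  let N : ℕ := ∏ x ∈ (Finset.univ : Finset (L ≃ₐ[ℚ] L)).filter (fun x => x ≠ 1),
    Ideal.absNorm (Ideal.span {x • b x - b x})
  refine ⟨N.primeFactors, fun ℓ hℓ hT => ⟨hℓ, fun P hP => ?_⟩⟩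
  have hPp := hP.1
  have hPl := hP.2
  rw [Subgroup.eq_bot_iff_forall]
  intro x hx
  by_contra hx1
  apply hT
  have hmem : x • b x - b x ∈ P := hx (b x)
  have hle : Ideal.span {x • b x - b x} ≤ P := (Ideal.span_singleton_le_iff_mem _).mpr hmem
  have hdvd1 : Ideal.absNorm P ∣ Ideal.absNorm (Ideal.span {x • b x - b x}) :=
    Ideal.absNorm_dvd_absNorm_of_le hle
  have hdvd2 : Ideal.absNorm (Ideal.span {x • b x - b x}) ∣ N :=
    Finset.dvd_prod_of_mem _ (Finset.mem_filter.mpr ⟨Finset.mem_univ _, hx1⟩)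
  have hℓP : ℓ ∣ Ideal.absNorm P := by
    have h1 := Ideal.absNorm_eq_pow_inertiaDeg' P hℓ
    have h2 : Ideal.absNorm P ≠ 1 := fun h => hPp.ne_top (Ideal.absNorm_eq_one_iff.mp h)
    rw [h1] at h2 ⊢
    refine dvd_pow_self ℓ fun h0 => h2 ?_
    rw [h0, pow_zero]
  have hN0 : N ≠ 0 := by
    refine Finset.prod_ne_zero_iff.mpr fun y hy => ?_
    rw [Ne, Ideal.absNorm_eq_zero_iff, Ideal.span_singleton_eq_bot]
    exact hb y (Finset.mem_filter.mp hy).2
  exact Nat.mem_primeFactors.mpr ⟨hℓ, hℓP.trans (hdvd1.trans hdvd2), hN0⟩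

end Bad

end Fermat.Agent.Lib.FrobDensity
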