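import Fermat.Agent.S14.Analytic.PrimeSums
import Fermat.Agent.Lib.FrobDensity.KeyCount

/-!
# Frobenius density, analytic input: degree-one prime sums

For a number field `F`, the Dirichlet series counting the primes of `F` of prime norm,
`∑_ℓ #{w : N w = ℓ} ℓ^(-s)`, is `log (1/(s-1)) + O(1)` on `(1, 2]`.  This is a regrouping of the
S14 prime-sum bounds (`PrimeSums.prime_sum_bound`, `PrimeSums.nonprime_norm_bound`).
-/

set_option autoImplicit false

open scoped NumberField
open IsDedekindDomain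
open Fermat.Agent.S14.Analytic

namespace Fermat.Agent.Lib.FrobDensity

variable (F : Type*) [Field F] [NumberField F]

/-- The number of primes of `F` of norm `n`, for `n` a prime number (and `0` otherwise). -/
noncomputable def degOneCount (n : ℕ) : ℝ :=
  if n.Prime then
    (Nat.card {w : HeightOneSpectrum (𝓞 F) // Ideal.absNorm w.asIdeal = n} : ℝ)
  else 0

theorem degOneCount_nonneg (n : ℕ) : 0 ≤ degOneCount F n := by
  unfold degOneCount
  split_ifs
  · exact Nat.cast_nonneg _
  · exact le_rfl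

theorem degOneCount_le (n : ℕ) : degOneCount F n ≤ Module.finrank ℚ F := by
  classical
  unfold degOneCount
  split_ifs with hp
  · have hfin := finite_norm_eq F n
    let _ := Fintype.ofFinite {w : HeightOneSpectrum (𝓞 F) // Ideal.absNorm w.asIdeal = n}
    have h := PrimeSums.card_fiber_le F n hp
      ((Finset.univ : Finset {w : HeightOneSpectrum (𝓞 F) // Ideal.absNorm w.asIdeal = n}).map
        (Function.Embedding.subtype _)) (by
        intro w hw
        obtain ⟨⟨w', hw'⟩, -, rfl⟩ := Finset.mem_map.mp hw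
        refine ⟨1, one_pos, by simpa using hw', ?_⟩
        have h1 := Ideal.absNorm_mem w'.asIdeal
        rw [hw'] at h1
        exact h1)
    rw [Finset.card_map, Finset.card_univ, ← Nat.card_eq_fintype_card] at h
    exact_mod_cast h
  · exact Nat.cast_nonneg _

/-- The term `N(w)^(-s)` if `N(w)` is a prime number, else `0`. -/
noncomputable def ptermOne (s : ℝ) (w : HeightOneSpectrum (𝓞 F)) : ℝ :=
  if (Ideal.absNorm w.asIdeal).Prime then ((Ideal.absNorm w.asIdeal : ℕ) : ℝ) ^ (-s) else 0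

/-- The term `N(w)^(-s)` if `N(w)` is not a prime number, else `0`. -/
noncomputable def ptermTwo (s : ℝ) (w : HeightOneSpectrum (𝓞 F)) : ℝ :=
  if (Ideal.absNorm w.asIdeal).Prime then 0 else ((Ideal.absNorm w.asIdeal : ℕ) : ℝ) ^ (-s)

lemma ptermOne_nonneg (s : ℝ) (w : HeightOneSpectrum (𝓞 F)) : 0 ≤ ptermOne F s w := by
  unfold ptermOne
  split_ifs
  · exact Real.rpow_nonneg (Nat.cast_nonneg _) _
  · exact le_rfl

lemma ptermTwo_nonneg (s : ℝ) (w : HeightOneSpectrum (𝓞 F)) : 0 ≤ ptermTwo F s w := by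
  unfold ptermTwo
  split_ifs
  · exact le_rfl
  · exact Real.rpow_nonneg (Nat.cast_nonneg _) _

lemma ptermOne_add_ptermTwo (s : ℝ) (w : HeightOneSpectrum (𝓞 F)) :
    ptermOne F s w + ptermTwo F s w = ((Ideal.absNorm w.asIdeal : ℕ) : ℝ) ^ (-s) := by
  unfold ptermOne ptermTwo
  split_ifs
  · rw [add_zero]
  · rw [zero_add]

lemma ptermOne_of_norm_eq (s : ℝ) (n : ℕ) (w : HeightOneSpectrum (𝓞 F))
    (hw : Ideal.absNorm w.asIdeal = n) :
    ptermOne F s w = if n.Prime then (n : ℝ) ^ (-s) else 0 := by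
  unfold ptermOne
  rw [hw]

lemma summable_ptermOne {s : ℝ} (hs : 1 < s) : Summable (ptermOne F s) :=
  Summable.of_nonneg_of_le (ptermOne_nonneg F s) (fun w => by
    rw [← ptermOne_add_ptermTwo F s w]
    exact le_add_of_nonneg_right (ptermTwo_nonneg F s w)) (PrimeSums.summable_primes F hs)

lemma summable_ptermTwo {s : ℝ} (hs : 1 < s) : Summable (ptermTwo F s) :=
  Summable.of_nonneg_of_le (ptermTwo_nonneg F s) (fun w => by
    rw [← ptermOne_add_ptermTwo F s w]
    exact le_add_of_nonneg_left (ptermOne_nonneg F s w)) (PrimeSums.summable_primes F hs)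

/-- Regrouping the degree-one prime sum by the norm. -/
lemma tsum_ptermOne {s : ℝ} (hs : 1 < s) :
    ∑' w, ptermOne F s w = ∑' n : ℕ, degOneCount F n * (n : ℝ) ^ (-s) := by
  have hfin : ∀ n, Finite {w : HeightOneSpectrum (𝓞 F) // Ideal.absNorm w.asIdeal = n} :=
    finite_norm_eq F
  have e1 := (Equiv.sigmaFiberEquiv
      (fun w : HeightOneSpectrum (𝓞 F) => Ideal.absNorm w.asIdeal)).tsum_eq (ptermOne F s)
  have hsig := (Equiv.sigmaFiberEquiv
      (fun w : HeightOneSpectrum (𝓞 F) => Ideal.absNorm w.asIdeal)).summable_iff.mpr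
      (summable_ptermOne F hs)
  rw [Function.comp_def] at hsig
  rw [← e1, Summable.tsum_sigma' (fun n => Summable.of_finite) hsig]
  refine tsum_congr fun n => ?_
  have h : ∀ w : {w : HeightOneSpectrum (𝓞 F) // Ideal.absNorm w.asIdeal = n},
      ptermOne F s ((Equiv.sigmaFiberEquiv
        (fun w : HeightOneSpectrum (𝓞 F) => Ideal.absNorm w.asIdeal)) ⟨n, w⟩) =
        if n.Prime then (n : ℝ) ^ (-s) else 0 :=
    fun w => ptermOne_of_norm_eq F s n w.1 w.2
  rw [tsum_congr h, tsum_const, nsmul_eq_mul]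
  unfold degOneCount
  by_cases hp : n.Prime
  · rw [if_pos hp, if_pos hp]
  · rw [if_neg hp, if_neg hp, mul_zero, zero_mul]

/-- **Degree-one prime sums.** -/
theorem degOne_sum_bound : ∃ C : ℝ, ∀ s : ℝ, 1 < s → s ≤ 2 →
    |∑' n : ℕ, degOneCount F n * (n : ℝ) ^ (-s) - Real.log (1 / (s - 1))| ≤ C := by
  classical
  obtain ⟨C₁, hC₁⟩ := PrimeSums.prime_sum_bound F
  obtain ⟨C₂, hC₂⟩ := PrimeSums.nonprime_norm_bound F
  refine ⟨C₁ + C₂, fun s hs1 hs2 => ?_⟩
  have hadd : ∑' w : HeightOneSpectrum (𝓞 F), ((Ideal.absNorm w.asIdeal : ℕ) : ℝ) ^ (-s) =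
      ∑' w, ptermOne F s w + ∑' w, ptermTwo F s w := by
    rw [← (summable_ptermOne F hs1).tsum_add (summable_ptermTwo F hs1)]
    exact tsum_congr fun w => (ptermOne_add_ptermTwo F s w).symm
  have h2nn : 0 ≤ ∑' w, ptermTwo F s w := tsum_nonneg (ptermTwo_nonneg F s)
  have h2le : ∑' w, ptermTwo F s w ≤ C₂ := by
    refine Real.tsum_le_of_sum_le (ptermTwo_nonneg F s) fun T => ?_
    have h : ∑ w ∈ T, ptermTwo F s w =
        ∑ w ∈ T.filter (fun w => ¬ (Ideal.absNorm w.asIdeal).Prime),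
          ((Ideal.absNorm w.asIdeal : ℕ) : ℝ) ^ (-s) := by
      rw [Finset.sum_filter]
      refine Finset.sum_congr rfl fun w _ => ?_
      unfold ptermTwo
      split_ifs <;> rfl
    rw [h]
    exact hC₂ s hs1 _ fun w hw => (Finset.mem_filter.mp hw).2
  have h1 := abs_le.mp (hC₁ s hs1 hs2)
  rw [← tsum_ptermOne F hs1, abs_le]
  constructor <;> linarith [h1.1, h1.2]

end Fermat.Agent.Lib.FrobDensity
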