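import Mathlib

/-!
# Frobenius density: bookkeeping for Dirichlet-type series with bounded coefficients

`DS c s = ∑ n, c n * n ^ (-s)`, the relation "bounded on `(1, 2]`", and the Möbius-type induction
over the divisors of `n` using `∑_{d ∣ m} φ(d) = m`.
-/

set_option autoImplicit false

namespace Fermat.Agent.Lib.FrobDensity

/-- A real function is bounded on `(1, 2]`. -/
def BddOn (f : ℝ → ℝ) : Prop := ∃ C : ℝ, ∀ s : ℝ, 1 < s → s ≤ 2 → |f s| ≤ C

lemma BddOn.congr {f g : ℝ → ℝ} (hf : BddOn f) (h : ∀ s : ℝ, 1 < s → s ≤ 2 → g s = f s) :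
    BddOn g := by
  obtain ⟨C, hC⟩ := hf
  exact ⟨C, fun s h1 h2 => by rw [h s h1 h2]; exact hC s h1 h2⟩

lemma BddOn.add {f g : ℝ → ℝ} (hf : BddOn f) (hg : BddOn g) : BddOn (fun s => f s + g s) := by
  obtain ⟨C, hC⟩ := hf
  obtain ⟨D, hD⟩ := hg
  exact ⟨C + D, fun s h1 h2 => (abs_add_le _ _).trans (add_le_add (hC s h1 h2) (hD s h1 h2))⟩

lemma BddOn.neg {f : ℝ → ℝ} (hf : BddOn f) : BddOn (fun s => - f s) := by
  obtain ⟨C, hC⟩ := hf
  exact ⟨C, fun s h1 h2 => by rw [abs_neg]; exact hC s h1 h2⟩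

lemma BddOn.sub {f g : ℝ → ℝ} (hf : BddOn f) (hg : BddOn g) : BddOn (fun s => f s - g s) := by
  have := hf.add hg.neg
  exact this.congr fun s _ _ => by ring

lemma BddOn.const_mul {f : ℝ → ℝ} (hf : BddOn f) (a : ℝ) : BddOn (fun s => a * f s) := by
  obtain ⟨C, hC⟩ := hf
  refine ⟨|a| * C, fun s h1 h2 => ?_⟩
  rw [abs_mul]
  exact mul_le_mul_of_nonneg_left (hC s h1 h2) (abs_nonneg a)

lemma BddOn.zero : BddOn (fun _ => 0) := ⟨0, fun s _ _ => by simp⟩

lemma BddOn.sum {ι : Type*} (T : Finset ι) {f : ι → ℝ → ℝ} (hf : ∀ i ∈ T, BddOn (f i)) :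
    BddOn (fun s => ∑ i ∈ T, f i s) := by
  classical
  induction T using Finset.induction_on with
  | empty => simpa using BddOn.zero
  | insert a T ha ih =>
    have h1 := (hf a (Finset.mem_insert_self a T)).add
      (ih fun i hi => hf i (Finset.mem_insert_of_mem hi))
    exact h1.congr fun s _ _ => by rw [Finset.sum_insert ha]

/-- **Möbius-type induction.** If `∑_{d ∣ m} f d = m * lam + O(1)` for all `m ∣ n`, then
`f m = φ(m) * lam + O(1)` for all `m ∣ n`. -/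
theorem bddOn_totient (f : ℕ → ℝ → ℝ) (lam : ℝ → ℝ) (n : ℕ)
    (h : ∀ m ∈ n.divisors, BddOn (fun s => (∑ d ∈ m.divisors, f d s) - (m : ℝ) * lam s)) :
    ∀ m ∈ n.divisors, BddOn (fun s => f m s - (m.totient : ℝ) * lam s) := by
  intro m
  induction m using Nat.strong_induction_on with
  | _ m ih =>
    intro hm
    have hmn : m ∣ n := Nat.dvd_of_mem_divisors hm
    have hn0 : n ≠ 0 := (Nat.mem_divisors.mp hm).2
    have hm0 : m ≠ 0 := fun h0 => hn0 (by rw [h0] at hmn; exact Nat.eq_zero_of_zero_dvd hmn)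
    have h1 := h m hm
    have h2 : BddOn (fun s => ∑ d ∈ m.properDivisors, (f d s - (d.totient : ℝ) * lam s)) := by
      refine BddOn.sum _ fun d hd => ?_
      have hd' := Nat.mem_properDivisors.mp hd
      exact ih d hd'.2 (Nat.mem_divisors.mpr ⟨hd'.1.trans hmn, hn0⟩)
    refine (h1.sub h2).congr fun s _ _ => ?_
    have e1 : ∑ d ∈ m.divisors, f d s = ∑ d ∈ m.properDivisors, f d s + f m s := by
      rw [← Nat.insert_self_properDivisors hm0,
        Finset.sum_insert Nat.self_notMem_properDivisors, add_comm]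
    have e2 : (m : ℝ) = ∑ d ∈ m.properDivisors, (d.totient : ℝ) + (m.totient : ℝ) := by
      have h3 : ∑ d ∈ m.divisors, d.totient = m := Nat.sum_totient m
      have h4 : ∑ d ∈ m.divisors, d.totient = ∑ d ∈ m.properDivisors, d.totient + m.totient := by
        rw [← Nat.insert_self_properDivisors hm0,
          Finset.sum_insert Nat.self_notMem_properDivisors, add_comm]
      rw [h4] at h3
      exact_mod_cast h3.symm
    rw [e1, Finset.sum_sub_distrib, ← Finset.sum_mul]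
    have e3 : (m : ℝ) * lam s =
        (∑ d ∈ m.properDivisors, (d.totient : ℝ)) * lam s + (m.totient : ℝ) * lam s := by
      rw [← add_mul, ← e2]
    rw [e3]
    ring

/-- Dirichlet-type series with coefficient function `c`. -/
noncomputable def DS (c : ℕ → ℝ) (s : ℝ) : ℝ := ∑' n : ℕ, c n * (n : ℝ) ^ (-s)

lemma summable_DS {c : ℕ → ℝ} {B : ℝ} (hc : ∀ n, |c n| ≤ B) {s : ℝ} (hs : 1 < s) :
    Summable (fun n : ℕ => c n * (n : ℝ) ^ (-s)) := by
  have h1 : Summable (fun n : ℕ => B * (n : ℝ) ^ (-s)) :=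
    (Real.summable_nat_rpow.mpr (by linarith)).mul_left B
  refine Summable.of_norm_bounded h1 fun n => ?_
  rw [Real.norm_eq_abs, abs_mul, abs_of_nonneg (Real.rpow_nonneg (Nat.cast_nonneg n) _)]
  exact mul_le_mul_of_nonneg_right (hc n) (Real.rpow_nonneg (Nat.cast_nonneg n) _)

lemma DS_add {c₁ c₂ : ℕ → ℝ} {B₁ B₂ : ℝ} (h₁ : ∀ n, |c₁ n| ≤ B₁) (h₂ : ∀ n, |c₂ n| ≤ B₂)
    {s : ℝ} (hs : 1 < s) : DS (fun n => c₁ n + c₂ n) s = DS c₁ s + DS c₂ s := by
  unfold DS
  rw [← (summable_DS h₁ hs).tsum_add (summable_DS h₂ hs)]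
  exact tsum_congr fun n => by ring

lemma DS_const_mul (a : ℝ) (c : ℕ → ℝ) (s : ℝ) : DS (fun n => a * c n) s = a * DS c s := by
  unfold DS
  rw [← tsum_mul_left]
  exact tsum_congr fun n => by ring

lemma DS_sub {c₁ c₂ : ℕ → ℝ} {B₁ B₂ : ℝ} (h₁ : ∀ n, |c₁ n| ≤ B₁) (h₂ : ∀ n, |c₂ n| ≤ B₂)
    {s : ℝ} (hs : 1 < s) : DS (fun n => c₁ n - c₂ n) s = DS c₁ s - DS c₂ s := by
  unfold DS
  rw [← (summable_DS h₁ hs).tsum_sub (summable_DS h₂ hs)]
  exact tsum_congr fun n => by ring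

lemma DS_sum {ι : Type*} (T : Finset ι) {c : ι → ℕ → ℝ} {B : ℝ} (hc : ∀ i ∈ T, ∀ n, |c i n| ≤ B)
    {s : ℝ} (hs : 1 < s) : DS (fun n => ∑ i ∈ T, c i n) s = ∑ i ∈ T, DS (c i) s := by
  unfold DS
  rw [← Summable.tsum_finsetSum fun i hi => summable_DS (hc i hi) hs]
  exact tsum_congr fun n => by rw [Finset.sum_mul]

/-- A finitely supported coefficient function has a bounded series. -/
lemma abs_DS_le_of_support {c : ℕ → ℝ} (T : Finset ℕ) (hc : ∀ n, n ∉ T → c n = 0) {s : ℝ}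
    (hs : 0 < s) : |DS c s| ≤ ∑ n ∈ T, |c n| := by
  unfold DS
  rw [tsum_eq_sum (s := T) fun n hn => by rw [hc n hn, zero_mul]]
  refine (Finset.abs_sum_le_sum_abs _ _).trans (Finset.sum_le_sum fun n _ => ?_)
  rw [abs_mul]
  have h1 : |(n : ℝ) ^ (-s)| ≤ 1 := by
    rw [abs_of_nonneg (Real.rpow_nonneg (Nat.cast_nonneg n) _)]
    rcases Nat.eq_zero_or_pos n with rfl | hn
    · rw [Nat.cast_zero, Real.zero_rpow (by linarith)]
      exact zero_le_one
    · exact Real.rpow_le_one_of_one_le_of_nonpos (by exact_mod_cast hn) (by linarith)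
  calc |c n| * |(n : ℝ) ^ (-s)| ≤ |c n| * 1 := mul_le_mul_of_nonneg_left h1 (abs_nonneg _)
    _ = |c n| := mul_one _

/-- `log (1 / (s - 1))` is unbounded on `(1, 2]`. -/
lemma not_bddOn_log {a : ℝ} (ha : 1 ≤ a) : ¬ BddOn (fun s => a * Real.log (1 / (s - 1))) := by
  rintro ⟨C, hC⟩
  have hpos : 0 < Real.exp (-(|C| + 1)) := Real.exp_pos _
  have hle : Real.exp (-(|C| + 1)) ≤ 1 := by
    rw [Real.exp_le_one_iff]
    have := abs_nonneg C
    linarith
  have h := hC (1 + Real.exp (-(|C| + 1))) (by linarith) (by linarith)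
  beta_reduce at h
  rw [add_sub_cancel_left, one_div, ← Real.exp_neg, neg_neg, Real.log_exp] at h
  have h1 : |C| + 1 ≤ a * (|C| + 1) := by
    have := abs_nonneg C
    nlinarith
  have h2 := le_abs_self (a * (|C| + 1))
  have h3 := le_abs_self C
  linarith

end Fermat.Agent.Lib.FrobDensity
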