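import Fermat.Agent.Lib.FrobDensity.Count
import Fermat.Agent.Lib.PlaceValRing
import Fermat.Agent.Lib.Frobenius
import Fermat.Agent.Lib.FrobProfinite

/-!
# Frobenius density theorem (existence form) for `Gal(ℚ̄/ℚ)`

For every finite extension `L ⊆ ℚ̄` of `ℚ`, every finite set `S` of primes and every
`g ∈ Gal(ℚ̄/ℚ)` there are a prime `ℓ ∉ S`, a place `A` of `ℚ̄` above `ℓ` and a Frobenius element
`s` at `A` such that `g` and `s` generate the same cyclic group on `L` (in particular `s ^ b = g`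
on `L` for some `b ≥ 1`).
-/

set_option autoImplicit false

open scoped NumberField Pointwise
open IsDedekindDomain

namespace Fermat.Agent.Lib.FrobDensity

section Generates

variable {L : Type*} [Field L] [NumberField L] [IsGalois ℚ L]

omit [IsGalois ℚ L] in
/-- Iterating the Frobenius congruence. -/
lemma frob_pow_congr {ℓ : ℕ} (P : Ideal (𝓞 L)) (τ : L ≃ₐ[ℚ] L)
    (hτ : ∀ b : 𝓞 L, τ • b - b ^ ℓ ∈ P) (j : ℕ) (b : 𝓞 L) :
    Ideal.Quotient.mk P ((τ ^ j) • b) = (Ideal.Quotient.mk P b) ^ (ℓ ^ j) := by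
  induction j generalizing b with
  | zero => simp
  | succ j ih =>
    rw [pow_succ', mul_smul]
    have h1 : Ideal.Quotient.mk P (τ • ((τ ^ j) • b)) =
        (Ideal.Quotient.mk P ((τ ^ j) • b)) ^ ℓ := by
      rw [← map_pow, Ideal.Quotient.eq]
      exact hτ _
    rw [h1, ih, ← pow_mul, pow_succ]

/-- **Frobenius generates the decomposition group** of an unramified prime. -/
theorem zpowers_eq_stabilizer_of_frob {ℓ : ℕ} (hℓ : ℓ.Prime) (P : Ideal (𝓞 L)) [P.IsPrime]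
    [P.LiesOver (ratIdeal ℓ)] (hI : P.inertia (L ≃ₐ[ℚ] L) = ⊥) (τ : L ≃ₐ[ℚ] L)
    (hτP : τ • P = P) (hτ : ∀ b : 𝓞 L, τ • b - b ^ ℓ ∈ P) :
    Subgroup.zpowers τ = MulAction.stabilizer (L ≃ₐ[ℚ] L) P := by
  classical
  have hmaxp := ratIdeal_isMaximal hℓ
  have hle : Subgroup.zpowers τ ≤ MulAction.stabilizer (L ≃ₐ[ℚ] L) P := by
    rw [Subgroup.zpowers_le]
    exact hτP
  refine Subgroup.eq_of_le_of_card_ge hle ?_
  have hcard := Ideal.card_stabilizer_eq_card_inertia_mul_finrank (G := L ≃ₐ[ℚ] L) (ratIdeal ℓ) P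
  rw [hI, Subgroup.card_bot, one_mul] at hcard
  rw [hcard, Nat.card_zpowers]
  have hk0 : 0 < orderOf τ := orderOf_pos τ
  have hPne : P ≠ ⊥ := by
    intro h
    have h2 : (ℓ : ℤ) ∈ ratIdeal ℓ := Ideal.mem_span_singleton_self _
    rw [Ideal.over_def P (ratIdeal ℓ), Ideal.under_def, Ideal.mem_comap, h, Ideal.mem_bot] at h2
    have h3 : ((ℓ : ℕ) : 𝓞 L) = 0 := by simpa using h2
    exact hℓ.ne_zero (by exact_mod_cast h3)
  have hPmax : P.IsMaximal := Ideal.IsPrime.isMaximal inferInstance hPne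
  let _ : Field (𝓞 L ⧸ P) := Ideal.Quotient.field P
  have hfin : Finite (𝓞 L ⧸ P) := Ideal.finiteQuotientOfFreeOfNeBot P hPne
  let _ := Fintype.ofFinite (𝓞 L ⧸ P)
  have hroot : ∀ x : 𝓞 L ⧸ P, x ^ (ℓ ^ orderOf τ) = x := by
    intro x
    obtain ⟨b, rfl⟩ := Ideal.Quotient.mk_surjective x
    have h := frob_pow_congr P τ hτ (orderOf τ) b
    rw [pow_orderOf_eq_one, one_smul] at h
    exact h.symm
  have hcardle : Fintype.card (𝓞 L ⧸ P) ≤ ℓ ^ orderOf τ := by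
    have h1 : 1 < ℓ ^ orderOf τ := Nat.one_lt_pow hk0.ne' hℓ.one_lt
    have hne := FiniteField.X_pow_card_sub_X_ne_zero (𝓞 L ⧸ P) h1
    have hsub : (Finset.univ : Finset (𝓞 L ⧸ P)).val ⊆
        (Polynomial.X ^ (ℓ ^ orderOf τ) - Polynomial.X : Polynomial (𝓞 L ⧸ P)).roots := by
      intro x _
      rw [Polynomial.mem_roots hne, Polynomial.IsRoot.def, Polynomial.eval_sub,
        Polynomial.eval_pow, Polynomial.eval_X, hroot x, sub_self]
    have h2 := Polynomial.card_le_degree_of_subset_roots hsub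
    rwa [FiniteField.X_pow_card_sub_X_natDegree_eq _ h1, Finset.card_univ] at h2
  have hN : Fintype.card (𝓞 L ⧸ P) = ℓ ^ (P.inertiaDeg ℤ) := by
    rw [← Nat.card_eq_fintype_card, ← Submodule.cardQuot_apply, ← Ideal.absNorm_apply,
      Ideal.absNorm_eq_pow_inertiaDeg' P hℓ, Ideal.inertiaDeg'_eq_inertiaDeg]
  rw [hN] at hcardle
  exact (Nat.pow_le_pow_iff_right hℓ.one_lt).mp hcardle

end Generates

section Powers

lemma exists_pos_pow_of_mem_zpowers {G : Type*} [Group G] [Finite G] {x y : G}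
    (h : y ∈ Subgroup.zpowers x) : ∃ b : ℕ, 0 < b ∧ x ^ b = y := by
  obtain ⟨k, hk⟩ := (Submonoid.mem_powers_iff _ _).mp (mem_powers_iff_mem_zpowers.mpr h)
  refine ⟨k + orderOf x, ?_, ?_⟩
  · have := orderOf_pos x
    omega
  · rw [pow_add, pow_orderOf_eq_one, mul_one, hk]

end Powers

section Qbar

local notation "Qb" => AlgebraicClosure ℚ
local notation "Γ" => (AlgebraicClosure ℚ ≃ₐ[ℚ] AlgebraicClosure ℚ)

/-- An element of the decomposition group of `A` preserves `A`. -/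
lemma decomp_mem_iff (A : ValuationSubring Qb) (s : Γ) (hs : s ∈ A.decompositionSubgroup ℚ)
    (y : Qb) : s y ∈ A ↔ y ∈ A := by
  have h : s • A = A := MulAction.mem_stabilizer_iff.mp hs
  have key : s y ∈ s • A ↔ y ∈ A := by
    rw [ValuationSubring.mem_pointwise_smul_iff_inv_smul_mem]
    have : s⁻¹ • s y = y := by
      change s.symm (s y) = y
      exact AlgEquiv.symm_apply_apply s y
    rw [this]
  rw [h] at key
  exact key

/-- An element of the decomposition group of `A` preserves the nonunits of `A`. -/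
lemma decomp_mem_nonunits_iff (A : ValuationSubring Qb) (s : Γ)
    (hs : s ∈ A.decompositionSubgroup ℚ) (y : Qb) : s y ∈ A.nonunits ↔ y ∈ A.nonunits := by
  rw [A.mem_nonunits_iff_or, A.mem_nonunits_iff_or, ← map_inv₀, decomp_mem_iff A s hs,
    EmbeddingLike.map_eq_zero_iff]

/-- A Frobenius element is congruent to the `ℓ`-th power map on `A`. -/
lemma frob_sub_pow_mem_nonunits (A : ValuationSubring Qb) (s : Γ) (ℓ : ℕ)
    (h : A.IsFrobeniusAt s ℓ) (y : Qb) (hy : y ∈ A) : s y - y ^ ℓ ∈ A.nonunits := by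
  obtain ⟨hs, hfrob⟩ := h
  have h1 := hfrob (IsLocalRing.residue A ⟨y, hy⟩)
  rw [← IsLocalRing.ResidueField.residue_smul, ← map_pow, ← sub_eq_zero, ← map_sub,
    IsLocalRing.residue_eq_zero_iff, ValuationSubring.valuation_lt_one_iff] at h1
  exact A.mem_nonunits_iff.mpr h1

/-- **Frobenius density, generator form, normal case.** -/
theorem exists_frobenius_generator_of_normal (N : IntermediateField ℚ Qb) [FiniteDimensional ℚ N]
    [Normal ℚ N] (S : Finset ℕ) (g : Γ) :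
    ∃ (ℓ : ℕ) (A : ValuationSubring Qb) (s : Γ) (b c : ℕ), ℓ.Prime ∧ ℓ ∉ S ∧
      A.LiesOverPrime ℓ ∧ A.IsFrobeniusAt s ℓ ∧ 0 < b ∧
      (∀ x ∈ N, (s ^ b) x = g x) ∧ (∀ x ∈ N, (g ^ c) x = s x) := by
  have hNF : NumberField N := ⟨⟩
  have hgal : IsGalois ℚ N := ⟨⟩
  set r : Γ →* (N ≃ₐ[ℚ] N) := AlgEquiv.restrictNormalHom N with hr
  obtain ⟨ℓ, P, hℓ, hℓS, hPp, hPl, hI, hstab⟩ := exists_prime_stabilizer_eq_zpowers N (r g) S
  have hℓP : ((ℓ : ℕ) : 𝓞 N) ∈ P := by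
    have h2 : (ℓ : ℤ) ∈ ratIdeal ℓ := Ideal.mem_span_singleton_self _
    rw [Ideal.over_def P (ratIdeal ℓ), Ideal.under_def, Ideal.mem_comap] at h2
    simpa using h2
  have hPne : P ≠ ⊥ := by
    intro h
    rw [h, Ideal.mem_bot] at hℓP
    exact hℓ.ne_zero (by exact_mod_cast hℓP)
  let v : HeightOneSpectrum (𝓞 N) := ⟨P, hPp, hPne⟩
  obtain ⟨A, hA1, hA2, hA3⟩ := Fermat.Agent.Lib.PlaceValRing.exists_valuationSubring_liesOver N v
  have hAℓ : A.LiesOverPrime ℓ := hA3 ℓ hℓP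
  obtain ⟨s, hs⟩ := Fermat.Agent.Lib.Frobenius.exists_isFrobeniusAt A hℓ hAℓ
  have hmem : ∀ b : 𝓞 N, b ∈ P ↔ (((b : N)) : Qb) ∈ A.nonunits := fun b => by
    rw [hA2]
    exact (HeightOneSpectrum.valuation_lt_one_iff_mem (K := N) v b).symm
  have hcoe : ∀ (γ : Γ) (b : 𝓞 N), ((((r γ) • b : 𝓞 N) : N) : Qb) = γ ((b : N) : Qb) :=
    fun γ b => AlgEquiv.restrictNormal_commutes γ N (b : N)
  have hint : ∀ b : 𝓞 N, (((b : N)) : Qb) ∈ A := fun b => by
    rw [hA1]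
    exact HeightOneSpectrum.valuation_le_one v b
  have hτP : r s • P = P := by
    ext x
    rw [Ideal.mem_pointwise_smul_iff_inv_smul_mem, hmem, hmem, ← map_inv, hcoe]
    exact decomp_mem_nonunits_iff A s⁻¹ (inv_mem hs.mem_decompositionSubgroup) _
  have hτ : ∀ b : 𝓞 N, r s • b - b ^ ℓ ∈ P := by
    intro b
    rw [hmem]
    have h1 : ((((r s • b - b ^ ℓ : 𝓞 N)) : N) : Qb) =
        s ((b : N) : Qb) - (((b : N)) : Qb) ^ ℓ := by
      rw [← hcoe]
      push_cast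
      rfl
    rw [h1]
    exact frob_sub_pow_mem_nonunits A s ℓ hs _ (hint b)
  have hPl' : P.LiesOver (ratIdeal ℓ) := hPl
  have hgen := zpowers_eq_stabilizer_of_frob hℓ P hI (r s) hτP hτ
  rw [hstab] at hgen
  have h1 : r g ∈ Subgroup.zpowers (r s) := hgen ▸ Subgroup.mem_zpowers (r g)
  have h2 : r s ∈ Subgroup.zpowers (r g) := hgen ▸ Subgroup.mem_zpowers (r s)
  obtain ⟨b, hb0, hb⟩ := exists_pos_pow_of_mem_zpowers h1
  obtain ⟨c, -, hc⟩ := exists_pos_pow_of_mem_zpowers h2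
  refine ⟨ℓ, A, s, b, c, hℓ, hℓS, hAℓ, hs, hb0, ?_, ?_⟩
  · intro x hx
    have e1 := AlgEquiv.restrictNormal_commutes (s ^ b) N ⟨x, hx⟩
    have e2 := AlgEquiv.restrictNormal_commutes g N ⟨x, hx⟩
    change ((r (s ^ b) ⟨x, hx⟩ : N) : Qb) = (s ^ b) x at e1
    change ((r g ⟨x, hx⟩ : N) : Qb) = g x at e2
    rw [← e1, ← e2, map_pow, hb]
  · intro x hx
    have e1 := AlgEquiv.restrictNormal_commutes (g ^ c) N ⟨x, hx⟩
    have e2 := AlgEquiv.restrictNormal_commutes s N ⟨x, hx⟩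
    change ((r (g ^ c) ⟨x, hx⟩ : N) : Qb) = (g ^ c) x at e1
    change ((r s ⟨x, hx⟩ : N) : Qb) = s x at e2
    rw [← e1, ← e2, map_pow, hc]

/-- **Frobenius density theorem, generator form.**  For a finite extension `L ⊆ ℚ̄` of `ℚ`, a
finite set `S` of primes and `g ∈ Gal(ℚ̄/ℚ)`, there are a prime `ℓ ∉ S`, a place `A` above `ℓ` and
a Frobenius `s` at `A` such that `s ^ b = g` and `g ^ c = s` on `L`, with `b ≥ 1`. -/
theorem exists_frobenius_generator (L : IntermediateField ℚ Qb) [FiniteDimensional ℚ L]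
    (S : Finset ℕ) (g : Γ) :
    ∃ (ℓ : ℕ) (A : ValuationSubring Qb) (s : Γ) (b c : ℕ), ℓ.Prime ∧ ℓ ∉ S ∧
      A.LiesOverPrime ℓ ∧ A.IsFrobeniusAt s ℓ ∧ 0 < b ∧
      (∀ x ∈ L, (s ^ b) x = g x) ∧ (∀ x ∈ L, (g ^ c) x = s x) := by
  have hfd : FiniteDimensional ℚ (IntermediateField.normalClosure ℚ L Qb) :=
    normalClosure.is_finiteDimensional ℚ L Qb
  have hQb : Normal ℚ Qb := Fermat.Agent.Lib.FrobProfinite.isGalois_Qb.to_normal
  have hnorm : Normal ℚ (IntermediateField.normalClosure ℚ L Qb) :=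
    normalClosure.normal ℚ L Qb
  obtain ⟨ℓ, A, s, b, c, h1, h2, h3, h4, h5, h6, h7⟩ :=
    exists_frobenius_generator_of_normal (IntermediateField.normalClosure ℚ L Qb) S g
  have hle : L ≤ IntermediateField.normalClosure ℚ L Qb := L.le_normalClosure
  exact ⟨ℓ, A, s, b, c, h1, h2, h3, h4, h5, fun x hx => h6 x (hle hx), fun x hx => h7 x (hle hx)⟩

/-- **Frobenius density theorem (existence form).**  Every element of `Gal(ℚ̄/ℚ)` agrees on a
given finite extension `L` with a positive power of a Frobenius element at a prime outside a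
given finite set. -/
theorem exists_frobenius_pow_eq (L : IntermediateField ℚ Qb) [FiniteDimensional ℚ L]
    (S : Finset ℕ) (g : Γ) :
    ∃ (ℓ : ℕ) (A : ValuationSubring Qb) (s : Γ) (b : ℕ), ℓ.Prime ∧ ℓ ∉ S ∧
      A.LiesOverPrime ℓ ∧ A.IsFrobeniusAt s ℓ ∧ 0 < b ∧ ∀ x ∈ L, (s ^ b) x = g x := by
  obtain ⟨ℓ, A, s, b, -, h1, h2, h3, h4, h5, h6, -⟩ := exists_frobenius_generator L S g
  exact ⟨ℓ, A, s, b, h1, h2, h3, h4, h5, h6⟩

end Qbar

end Fermat.Agent.Lib.FrobDensity
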