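import Fermat.Agent.Lib.FrobDensity.KeyCount
import Fermat.Agent.Lib.FrobDensity.Series
import Fermat.Agent.Lib.FrobDensity.DegOne

/-!
# Frobenius density (existence form), finite level

For a finite Galois extension `L/ℚ`, `σ ∈ Gal(L/ℚ)` and a finite set `S` of primes there is a prime
`ℓ ∉ S` and a prime `P` of `L` above `ℓ` with trivial inertia group and decomposition group exactly
`⟨σ⟩`.  Proof: degree-one prime sums of the fixed fields of the subgroups of `⟨σ⟩` (`key_count`),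
and the Möbius-type induction `bddOn_totient`.
-/

set_option autoImplicit false

open scoped NumberField Pointwise
open IsDedekindDomain

namespace Fermat.Agent.Lib.FrobDensity

section Cyclic

variable {G : Type*} [Group G] [Finite G] (σ : G)

lemma card_zpowers_pow_div {m : ℕ} (hm : m ∣ orderOf σ) :
    Nat.card (Subgroup.zpowers (σ ^ (orderOf σ / m))) = m := by
  have hn : 0 < orderOf σ := orderOf_pos σ
  have hk0 : orderOf σ / m ≠ 0 := by
    intro h
    have h1 := Nat.div_mul_cancel hm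
    rw [h, zero_mul] at h1
    exact hn.ne h1
  rw [Nat.card_zpowers, orderOf_pow_of_dvd hk0 (Nat.div_dvd_of_dvd hm)]
  exact Nat.div_div_self hm hn.ne'

lemma le_zpowers_pow_div_iff {m : ℕ} (hm : m ∣ orderOf σ) (D : Subgroup G) :
    D ≤ Subgroup.zpowers (σ ^ (orderOf σ / m)) ↔
      D ≤ Subgroup.zpowers σ ∧ Nat.card D ∣ m := by
  have hn : 0 < orderOf σ := orderOf_pos σ
  have hm0 : m ≠ 0 := by
    rintro rfl
    exact hn.ne' (Nat.eq_zero_of_zero_dvd hm)
  constructor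
  · intro h
    refine ⟨h.trans ?_, ?_⟩
    · rw [Subgroup.zpowers_le]
      exact Subgroup.pow_mem _ (Subgroup.mem_zpowers σ) _
    · have h1 := Subgroup.card_dvd_of_le h
      rwa [card_zpowers_pow_div σ hm] at h1
  · rintro ⟨h1, h2⟩ x hx
    obtain ⟨j, rfl⟩ := Subgroup.mem_zpowers_iff.mp (h1 hx)
    have hx1 : (σ ^ j) ^ (Nat.card D) = 1 := by
      have h3 : (⟨σ ^ j, hx⟩ : D) ^ (Nat.card D) = 1 := pow_card_eq_one'
      exact congrArg Subtype.val h3
    have hx2 : (σ ^ j) ^ m = 1 := by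
      obtain ⟨k, rfl⟩ := h2
      rw [pow_mul, hx1, one_pow]
    rw [← zpow_natCast, ← zpow_mul] at hx2
    have hdvd : (orderOf σ : ℤ) ∣ j * m := orderOf_dvd_iff_zpow_eq_one.mpr hx2
    obtain ⟨k, hk⟩ := hm
    have hk' : orderOf σ / m = k := by
      rw [hk]
      exact Nat.mul_div_cancel_left k (Nat.pos_of_ne_zero hm0)
    rw [hk']
    have hkj : (k : ℤ) ∣ j := by
      rw [hk] at hdvd
      push_cast at hdvd
      rw [mul_comm j (m : ℤ)] at hdvd
      exact Int.dvd_of_mul_dvd_mul_left (by exact_mod_cast hm0) hdvd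
    obtain ⟨i, rfl⟩ := hkj
    rw [zpow_mul, zpow_natCast]
    exact Subgroup.zpow_mem_zpowers _ i

end Cyclic

section Assembly

variable (L : Type*) [Field L] [NumberField L] [IsGalois ℚ L] (σ : L ≃ₐ[ℚ] L)

open Classical in
/-- The coefficient function: for a good prime `ℓ` with decomposition groups of order `d`,
`d` times the number of primes above `ℓ` whose decomposition group lies in `⟨σ⟩`. -/
noncomputable def tcoef (d ℓ : ℕ) : ℝ :=
  if Good L ℓ ∧ decompCard L ℓ = d then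
    (decompCard L ℓ : ℝ) * (Nat.card (primesWithin (Subgroup.zpowers σ) ℓ) : ℝ)
  else 0

lemma tcoef_nonneg (d ℓ : ℕ) : 0 ≤ tcoef L σ d ℓ := by
  unfold tcoef
  split_ifs
  · positivity
  · exact le_rfl

lemma tcoef_eq_zero_of_not_good (d : ℕ) {ℓ : ℕ} (h : ¬ Good L ℓ) : tcoef L σ d ℓ = 0 := by
  unfold tcoef
  rw [if_neg fun h' => h h'.1]

lemma tcoef_le (d ℓ : ℕ) :
    tcoef L σ d ℓ ≤ (orderOf σ : ℝ) * (Module.finrank ℚ (fixedF L (Subgroup.zpowers σ)) : ℝ) := by
  unfold tcoef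
  split_ifs with h
  · have h1 := key_count (Subgroup.zpowers σ) h.1
    rw [Nat.card_zpowers] at h1
    have h2 : (decompCard L ℓ : ℝ) * (Nat.card (primesWithin (Subgroup.zpowers σ) ℓ) : ℝ) =
        (orderOf σ : ℝ) * degOneCount (fixedF L (Subgroup.zpowers σ)) ℓ := by
      rw [degOneCount, if_pos h.1.1]
      exact_mod_cast h1.symm
    rw [h2]
    exact mul_le_mul_of_nonneg_left (degOneCount_le _ _) (Nat.cast_nonneg _)
  · positivity

lemma abs_tcoef_le (d ℓ : ℕ) :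
    |tcoef L σ d ℓ| ≤ (orderOf σ : ℝ) * (Module.finrank ℚ (fixedF L (Subgroup.zpowers σ)) : ℝ) := by
  rw [abs_of_nonneg (tcoef_nonneg L σ d ℓ)]
  exact tcoef_le L σ d ℓ

/-- The key identity at a good prime. -/
lemma mul_degOneCount_eq_sum_tcoef {m : ℕ} (hm : m ∣ orderOf σ) {ℓ : ℕ} (hℓ : Good L ℓ) :
    (m : ℝ) * degOneCount (fixedF L (Subgroup.zpowers (σ ^ (orderOf σ / m)))) ℓ =
      ∑ d ∈ m.divisors, tcoef L σ d ℓ := by
  have hn : 0 < orderOf σ := orderOf_pos σ
  have hm0 : m ≠ 0 := by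
    rintro rfl
    exact hn.ne' (Nat.eq_zero_of_zero_dvd hm)
  have hkc := key_count (Subgroup.zpowers (σ ^ (orderOf σ / m))) hℓ
  rw [card_zpowers_pow_div σ hm] at hkc
  rw [degOneCount, if_pos hℓ.1]
  by_cases hd : decompCard L ℓ ∣ m
  · have hset : primesWithin (Subgroup.zpowers (σ ^ (orderOf σ / m))) ℓ =
        primesWithin (Subgroup.zpowers σ) ℓ := by
      ext P
      constructor
      · rintro ⟨hP, hst⟩
        exact ⟨hP, ((le_zpowers_pow_div_iff σ hm _).mp hst).1⟩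
      · rintro ⟨hP, hst⟩
        refine ⟨hP, (le_zpowers_pow_div_iff σ hm _).mpr ⟨hst, ?_⟩⟩
        rw [card_stabilizer_eq_decompCard hℓ P hP]
        exact hd
    rw [hset] at hkc
    rw [Finset.sum_eq_single (decompCard L ℓ)]
    · rw [tcoef, if_pos ⟨hℓ, rfl⟩]
      exact_mod_cast hkc
    · intro d _ hne
      rw [tcoef, if_neg fun h => hne h.2.symm]
    · intro h
      exact absurd (Nat.mem_divisors.mpr ⟨hd, hm0⟩) h
  · have hset : primesWithin (Subgroup.zpowers (σ ^ (orderOf σ / m))) ℓ = ∅ := by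
      rw [Set.eq_empty_iff_forall_notMem]
      rintro P ⟨hP, hst⟩
      apply hd
      rw [← card_stabilizer_eq_decompCard hℓ P hP]
      exact ((le_zpowers_pow_div_iff σ hm _).mp hst).2
    rw [hset] at hkc
    have h0 : Nat.card (∅ : Set (Ideal (𝓞 L))) = 0 := by simp
    rw [h0, mul_zero] at hkc
    rw [Finset.sum_eq_zero]
    · exact_mod_cast hkc
    · intro d hd'
      rw [tcoef, if_neg]
      rintro ⟨-, rfl⟩
      exact hd (Nat.dvd_of_mem_divisors hd')

/-- The sums over the divisors of `m` are `m * log (1/(s-1)) + O(1)`. -/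
lemma bddOn_sum_tcoef {m : ℕ} (hm : m ∈ (orderOf σ).divisors) :
    BddOn (fun s => (∑ d ∈ m.divisors, DS (tcoef L σ d) s) -
      (m : ℝ) * Real.log (1 / (s - 1))) := by
  have hmd : m ∣ orderOf σ := Nat.dvd_of_mem_divisors hm
  obtain ⟨T, hT⟩ := exists_finset_good L
  obtain ⟨C₀, hC₀⟩ := degOne_sum_bound (fixedF L (Subgroup.zpowers (σ ^ (orderOf σ / m))))
  set c₁ : ℕ → ℝ := fun ℓ =>
    (m : ℝ) * degOneCount (fixedF L (Subgroup.zpowers (σ ^ (orderOf σ / m)))) ℓ with hc₁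
  set c₂ : ℕ → ℝ := fun ℓ => ∑ d ∈ m.divisors, tcoef L σ d ℓ with hc₂
  set B₀ : ℝ := (Module.finrank ℚ (fixedF L (Subgroup.zpowers (σ ^ (orderOf σ / m)))) : ℝ)
    with hB₀
  set B : ℝ := (orderOf σ : ℝ) * (Module.finrank ℚ (fixedF L (Subgroup.zpowers σ)) : ℝ) with hB
  have hb₀ : ∀ n, |degOneCount (fixedF L (Subgroup.zpowers (σ ^ (orderOf σ / m)))) n| ≤ B₀ := by
    intro n
    rw [abs_of_nonneg (degOneCount_nonneg _ _)]
    exact degOneCount_le _ _
  have hb₁ : ∀ n, |c₁ n| ≤ (m : ℝ) * B₀ := by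
    intro n
    rw [hc₁, abs_mul, abs_of_nonneg (Nat.cast_nonneg m)]
    exact mul_le_mul_of_nonneg_left (hb₀ n) (Nat.cast_nonneg m)
  have hb₂ : ∀ n, |c₂ n| ≤ m.divisors.card * B := by
    intro n
    rw [hc₂]
    refine (Finset.abs_sum_le_sum_abs _ _).trans ?_
    calc ∑ d ∈ m.divisors, |tcoef L σ d n| ≤ ∑ _d ∈ m.divisors, B :=
          Finset.sum_le_sum fun d _ => abs_tcoef_le L σ d n
      _ = m.divisors.card * B := by rw [Finset.sum_const, nsmul_eq_mul]
  have hsupp : ∀ ℓ, ℓ ∉ T → c₁ ℓ - c₂ ℓ = 0 := by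
    intro ℓ hℓT
    by_cases hp : ℓ.Prime
    · rw [hc₁, hc₂]
      beta_reduce
      rw [mul_degOneCount_eq_sum_tcoef L σ hmd (hT ℓ hp hℓT), sub_self]
    · have hng : ¬ Good L ℓ := fun h => hp h.1
      rw [hc₁, hc₂]
      beta_reduce
      rw [degOneCount, if_neg hp, mul_zero,
        Finset.sum_eq_zero fun d _ => tcoef_eq_zero_of_not_good L σ d hng, sub_self]
  refine ⟨(m : ℝ) * C₀ + ∑ n ∈ T, |c₁ n - c₂ n|, fun s hs1 hs2 => ?_⟩
  have e1 : DS (fun n => c₁ n - c₂ n) s = DS c₁ s - DS c₂ s := DS_sub hb₁ hb₂ hs1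
  have e2 : DS c₁ s =
      (m : ℝ) * DS (degOneCount (fixedF L (Subgroup.zpowers (σ ^ (orderOf σ / m))))) s :=
    DS_const_mul _ _ _
  have e3 : DS c₂ s = ∑ d ∈ m.divisors, DS (tcoef L σ d) s :=
    DS_sum _ (fun d _ n => abs_tcoef_le L σ d n) hs1
  have h1 := abs_DS_le_of_support (c := fun n => c₁ n - c₂ n) T hsupp (by linarith : (0 : ℝ) < s)
  have h2 := hC₀ s hs1 hs2
  have h3 : (∑ d ∈ m.divisors, DS (tcoef L σ d) s) - (m : ℝ) * Real.log (1 / (s - 1)) =
      (m : ℝ) * (DS (degOneCount (fixedF L (Subgroup.zpowers (σ ^ (orderOf σ / m))))) s -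
        Real.log (1 / (s - 1))) - DS (fun n => c₁ n - c₂ n) s := by
    rw [e1, e2, e3]
    ring
  beta_reduce
  rw [h3]
  refine (abs_sub _ _).trans (add_le_add ?_ h1)
  rw [abs_mul, abs_of_nonneg (Nat.cast_nonneg m)]
  exact mul_le_mul_of_nonneg_left h2 (Nat.cast_nonneg m)

/-- **Frobenius density, existence form, at finite level.**  For every `σ ∈ Gal(L/ℚ)` and every
finite set `S` of primes there are a prime `ℓ ∉ S` and a prime `P` of `L` above `ℓ` with trivial
inertia group whose decomposition group is exactly the cyclic group generated by `σ`. -/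
theorem exists_prime_stabilizer_eq_zpowers (S : Finset ℕ) :
    ∃ (ℓ : ℕ) (P : Ideal (𝓞 L)), ℓ.Prime ∧ ℓ ∉ S ∧ P.IsPrime ∧
      P.LiesOver (Ideal.span {(ℓ : ℤ)}) ∧ P.inertia (L ≃ₐ[ℚ] L) = ⊥ ∧
      MulAction.stabilizer (L ≃ₐ[ℚ] L) P = Subgroup.zpowers σ := by
  by_contra hcon
  have hn : 0 < orderOf σ := orderOf_pos σ
  have hB := bddOn_totient (fun d s => DS (tcoef L σ d) s) (fun s => Real.log (1 / (s - 1)))
    (orderOf σ) (fun m hm => bddOn_sum_tcoef L σ hm) (orderOf σ)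
    (Nat.mem_divisors_self _ hn.ne')
  have hsupp : ∀ ℓ, ℓ ∉ S → tcoef L σ (orderOf σ) ℓ = 0 := by
    intro ℓ hℓS
    unfold tcoef
    split_ifs with h
    · obtain ⟨hg, hdc⟩ := h
      have h0 : Nat.card (primesWithin (Subgroup.zpowers σ) ℓ) = 0 := by
        by_contra hne
        obtain ⟨⟨P, hP, hst⟩⟩ := (Nat.card_ne_zero.mp hne).1
        have hcard := card_stabilizer_eq_decompCard hg P hP
        have heq : MulAction.stabilizer (L ≃ₐ[ℚ] L) P = Subgroup.zpowers σ :=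
          Subgroup.eq_of_le_of_card_ge hst (by rw [hcard, hdc, Nat.card_zpowers])
        exact hcon ⟨ℓ, P, hg.1, hℓS, hP.1, hP.2, hg.2 P hP, heq⟩
      rw [h0, Nat.cast_zero, mul_zero]
    · rfl
  have hb2 : BddOn (fun s => DS (tcoef L σ (orderOf σ)) s) :=
    ⟨∑ ℓ ∈ S, |tcoef L σ (orderOf σ) ℓ|, fun s h1 _ =>
      abs_DS_le_of_support S hsupp (by linarith)⟩
  have hb3 : BddOn (fun s => ((orderOf σ).totient : ℝ) * Real.log (1 / (s - 1))) :=
    (hb2.sub hB).congr fun s _ _ => by ring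
  exact not_bddOn_log (by exact_mod_cast Nat.totient_pos.mpr hn) hb3

end Assembly

end Fermat.Agent.Lib.FrobDensity
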